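/-
DELTA / Σ-GLUE (helper9), part 1: **the abstract gluing datum and its branches**.

`k` algebraically closed, `κ₁`, `κ₂` function fields over `k` (the two components of the special
fibre), `x̄ = (x̄₁, x̄₂)` a chart (both coordinates separating generators), `R = IntCl(k[x̄])` in
`κ₁ × κ₂`, `S ⊆ R` a `k`-subalgebra (the coordinate ring of the special fibre, `S = res B₁`) with
* `ev : R → k^σ`, `ker ev ⊆ S` (seminormality, `T2Setup.hJ`);
* (α) every `f ∈ IntCl(k[x̄₁])` is the first coordinate of an element of `S`, (β) symmetrically.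

This file: the datum `DlgData`, the value predicate `DlgVal P f c` ("`f(P) = c`"), and the fact that
every coordinate of `ev` is the evaluation of one of the two components at a place (`br`).
-/
import Fermat.Agent.Lib.S33.Red.Prod
import Fermat.Agent.Lib.T3.Red.Interp
import Fermat.Agent.Lib.T2.Core.Node

set_option autoImplicit false
set_option linter.unusedSectionVars false
set_option linter.unusedVariables false
set_option linter.style.haveILetI false

namespace Fermat.Agent.Delta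

open AlgebraicCurve IntermediateField Fermat.Agent.Curve Fermat.Agent.Curve.PlaceAux
  Fermat.Agent.T1 Fermat.Agent.T2 Fermat.Agent.T3 Fermat.Agent.S33

/-- "`f(P) = c`" -/
def DlgVal {k κ : Type*} [Field k] [Field κ] [Algebra k κ] (P : Place k κ) (f : κ) (c : k) : Prop :=
  OrdGE P (f - algebraMap k κ c) 1

namespace DlgVal

variable {k κ : Type*} [Field k] [Field κ] [Algebra k κ] [IsAlgClosed k] {P : Place k κ}

theorem unique {f : κ} {c c' : k} (h : DlgVal P f c) (h' : DlgVal P f c') : c = c' :=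
  const_unique_of_ordGE_one P h h'

theorem mem {f : κ} {c : k} (h : DlgVal P f c) : f ∈ P.toValuationSubring :=
  CurveP.RRAux.mem_of_ordGE_sub_const P h

theorem const (P : Place k κ) (c : k) : DlgVal P (algebraMap k κ c) c := by
  unfold DlgVal
  rw [sub_self]
  exact ordGE_zero P 1

theorem zero (P : Place k κ) : DlgVal P (0 : κ) 0 := by
  have := const P (0 : k)
  rwa [map_zero] at this

theorem one (P : Place k κ) : DlgVal P (1 : κ) 1 := by
  have := const P (1 : k)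
  rwa [map_one] at this

theorem add {f g : κ} {c c' : k} (h : DlgVal P f c) (h' : DlgVal P g c') :
    DlgVal P (f + g) (c + c') := by
  unfold DlgVal at *
  have := h.add P h'
  rwa [show f - algebraMap k κ c + (g - algebraMap k κ c') = f + g - algebraMap k κ (c + c') by
    rw [map_add]; ring] at this

theorem sub {f g : κ} {c c' : k} (h : DlgVal P f c) (h' : DlgVal P g c') :
    DlgVal P (f - g) (c - c') := by
  unfold DlgVal at *
  have := h.sub P h'
  rwa [show f - algebraMap k κ c - (g - algebraMap k κ c') = f - g - algebraMap k κ (c - c') by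
    rw [map_sub]; ring] at this

theorem mul {f g : κ} {c c' : k} (h : DlgVal P f c) (h' : DlgVal P g c') :
    DlgVal P (f * g) (c * c') :=
  t3a_ordGE_mul_of P h h'

theorem smul {f : κ} {c : k} (a : k) (h : DlgVal P f c) : DlgVal P (a • f) (a * c) := by
  rw [Algebra.smul_def]
  exact (const P a).mul h

/-- a function vanishing at `P` -/
theorem of_ordGE {f : κ} (h : OrdGE P f 1) : DlgVal P f 0 := by
  unfold DlgVal
  rwa [map_zero, sub_zero]

theorem ordGE {f : κ} (h : DlgVal P f 0) : OrdGE P f 1 := by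
  unfold DlgVal at h
  rwa [map_zero, sub_zero] at h

/-- a unit of the valuation ring has a non-zero value -/
theorem ne_zero_of_ord_eq_zero {f : κ} {c : k} (hf : f ≠ 0) (h0 : P.ord f = 0)
    (h : DlgVal P f c) : c ≠ 0 := by
  rintro rfl
  rcases (ordGE_iff P).mp h.ordGE with h1 | h1
  · exact hf h1
  · omega

end DlgVal

/-- existence of values (`k` algebraically closed) -/
theorem dlg_exists_val {k κ : Type*} [Field k] [Field κ] [Algebra k κ] [IsAlgClosed k] {z : κ}
    (hz : IsFunctionFieldGen k κ z) (P : Place k κ) {f : κ} (hf : f ∈ P.toValuationSubring) :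
    ∃ c : k, DlgVal P f c :=
  exists_const_ordGE_one hz P hf

/-- **the abstract gluing datum** -/
structure DlgData (k κ₁ κ₂ : Type*) [Field k] [Field κ₁] [Field κ₂] [Algebra k κ₁] [Algebra k κ₂]
    (σ : Type*) [Fintype σ] where
  /-- the chart -/
  x : κ₁ × κ₂
  gen₁ : IsFunctionFieldGen k κ₁ x.1
  sep₁ : Algebra.IsSeparable k⟮x.1⟯ κ₁
  gen₂ : IsFunctionFieldGen k κ₂ x.2
  sep₂ : Algebra.IsSeparable k⟮x.2⟯ κ₂
  /-- the coordinate ring of the special fibre -/
  S : Subalgebra k (κ₁ × κ₂)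
  S_le : S ≤ t2R (k := k) x
  /-- evaluation at the possibly singular points -/
  ev : ↥(t2R (k := k) x) →ₐ[k] (σ → k)
  hJ : ∀ r : ↥(t2R (k := k) x), ev r = 0 → (r : κ₁ × κ₂) ∈ S
  hα : ∀ f : κ₁, IsIntegral ↥(Algebra.adjoin k {x.1}) f → ∃ g : κ₂, (f, g) ∈ S
  hβ : ∀ g : κ₂, IsIntegral ↥(Algebra.adjoin k {x.2}) g → ∃ f : κ₁, (f, g) ∈ S

namespace DlgData

variable {k κ₁ κ₂ : Type*} [Field k] [Field κ₁] [Field κ₂] [Algebra k κ₁] [Algebra k κ₂]
  [IsAlgClosed k] {σ : Type*} [Fintype σ] (G : DlgData k κ₁ κ₂ σ)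

/-- each coordinate of `ev` is the evaluation of one component at a place -/
theorem exists_branch (j : σ) :
    (∃ P : Place k κ₁, 0 ≤ P.ord G.x.1 ∧
      ∀ r : ↥(t2R (k := k) G.x), DlgVal P (r : κ₁ × κ₂).1 (G.ev r j)) ∨
    (∃ Q : Place k κ₂, 0 ≤ Q.ord G.x.2 ∧
      ∀ r : ↥(t2R (k := k) G.x), DlgVal Q (r : κ₁ × κ₂).2 (G.ev r j)) := by
  haveI := G.sep₁
  haveI := G.sep₂
  set φ : ↥(t2R (k := k) G.x) →ₐ[k] k :=
    (Pi.evalAlgHom k (fun _ : σ => k) j).comp G.ev with hφ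
  have hφr : ∀ r, φ r = G.ev r j := fun _ => rfl
  set e₁ : ↥(t2R (k := k) G.x) :=
    ⟨((1 : κ₁), (0 : κ₂)), s33rd_isIntegral_inl isIntegral_one⟩ with he₁
  set e₂ : ↥(t2R (k := k) G.x) :=
    ⟨((0 : κ₁), (1 : κ₂)), s33rd_isIntegral_inr isIntegral_one⟩ with he₂
  have hsum : e₁ + e₂ = 1 := by
    apply Subtype.ext
    show ((1 : κ₁), (0 : κ₂)) + ((0 : κ₁), (1 : κ₂)) = 1
    rw [Prod.mk_add_mk, add_zero, zero_add]
    rfl
  have hidem : e₁ * e₁ = e₁ := by
    apply Subtype.ext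
    show ((1 : κ₁), (0 : κ₂)) * ((1 : κ₁), (0 : κ₂)) = ((1 : κ₁), (0 : κ₂))
    rw [Prod.mk_mul_mk, mul_one, mul_zero]
  have h1 : φ e₁ * φ e₁ = φ e₁ := by rw [← map_mul, hidem]
  have h2 : φ e₁ + φ e₂ = 1 := by rw [← map_add, hsum, map_one]
  have h3 : φ e₁ = 0 ∨ φ e₁ = 1 := by
    have : φ e₁ * (φ e₁ - 1) = 0 := by rw [mul_sub, h1, mul_one, sub_self]
    rcases mul_eq_zero.mp this with h0 | h0
    · exact Or.inl h0
    · exact Or.inr (sub_eq_zero.mp h0)
  rcases h3 with h0 | h0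
  · have h4 : φ e₂ = 1 := by rw [h0, zero_add] at h2; exact h2
    obtain ⟨Q, hQ, hval⟩ := s33rd_node_snd G.gen₂ φ h4
    exact Or.inr ⟨Q, hQ, fun r => by rw [← hφr]; exact hval r⟩
  · obtain ⟨P, hP, hval⟩ := s33rd_node_fst G.gen₁ φ h0
    exact Or.inl ⟨P, hP, fun r => by rw [← hφr]; exact hval r⟩

/-- the branch of a coordinate of `ev` -/
noncomputable def br (j : σ) : Place k κ₁ ⊕ Place k κ₂ := by
  classical
  exact if h : ∃ P : Place k κ₁, 0 ≤ P.ord G.x.1 ∧
      ∀ r : ↥(t2R (k := k) G.x), DlgVal P (r : κ₁ × κ₂).1 (G.ev r j) then Sum.inl h.choose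
    else Sum.inr ((G.exists_branch j).resolve_left h).choose

theorem br_inl {j : σ} {P : Place k κ₁} (h : G.br j = Sum.inl P) :
    0 ≤ P.ord G.x.1 ∧ ∀ r : ↥(t2R (k := k) G.x), DlgVal P (r : κ₁ × κ₂).1 (G.ev r j) := by
  classical
  by_cases h1 : ∃ P : Place k κ₁, 0 ≤ P.ord G.x.1 ∧
      ∀ r : ↥(t2R (k := k) G.x), DlgVal P (r : κ₁ × κ₂).1 (G.ev r j)
  · have h2 : G.br j = Sum.inl h1.choose := by
      unfold br
      rw [dif_pos h1]
    rw [h2, Sum.inl.injEq] at h
    rw [← h]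
    exact h1.choose_spec
  · have h2 : G.br j = Sum.inr ((G.exists_branch j).resolve_left h1).choose := by
      unfold br
      rw [dif_neg h1]
    rw [h2] at h
    exact absurd h (by simp)

theorem br_inr {j : σ} {Q : Place k κ₂} (h : G.br j = Sum.inr Q) :
    0 ≤ Q.ord G.x.2 ∧ ∀ r : ↥(t2R (k := k) G.x), DlgVal Q (r : κ₁ × κ₂).2 (G.ev r j) := by
  classical
  by_cases h1 : ∃ P : Place k κ₁, 0 ≤ P.ord G.x.1 ∧
      ∀ r : ↥(t2R (k := k) G.x), DlgVal P (r : κ₁ × κ₂).1 (G.ev r j)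
  · have h2 : G.br j = Sum.inl h1.choose := by
      unfold br
      rw [dif_pos h1]
    rw [h2] at h
    exact absurd h (by simp)
  · have h2 : G.br j = Sum.inr ((G.exists_branch j).resolve_left h1).choose := by
      unfold br
      rw [dif_neg h1]
    rw [h2, Sum.inr.injEq] at h
    rw [← h]
    exact ((G.exists_branch j).resolve_left h1).choose_spec

/-- `S` as a subalgebra of `R` -/
def SR : Subalgebra k ↥(t2R (k := k) G.x) := G.S.comap (t2R (k := k) G.x).val

theorem mem_SR {r : ↥(t2R (k := k) G.x)} : r ∈ G.SR ↔ (r : κ₁ × κ₂) ∈ G.S := Iff.rfl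

/-- the image of `S` in `k^σ` -/
def A : Subalgebra k (σ → k) := G.SR.map G.ev

theorem mem_A {a : σ → k} : a ∈ G.A ↔ ∃ r : ↥(t2R (k := k) G.x), (r : κ₁ × κ₂) ∈ G.S ∧ G.ev r = a :=
  Iff.rfl

/-- the lift of an element of `S` to `R` -/
def toR {t : κ₁ × κ₂} (ht : t ∈ G.S) : ↥(t2R (k := k) G.x) := ⟨t, G.S_le ht⟩

theorem ev_toR_mem {t : κ₁ × κ₂} (ht : t ∈ G.S) : G.ev (G.toR ht) ∈ G.A := ⟨G.toR ht, ht, rfl⟩

/-- **seminormality**: an element of `R` whose values are constant on the classes lies in `S` -/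
theorem mem_S_of_const (r : ↥(t2R (k := k) G.x))
    (h : ∀ i j, (t2nSetoid G.A).r i j → G.ev r i = G.ev r j) : (r : κ₁ × κ₂) ∈ G.S := by
  have h1 : G.ev r ∈ G.A := t2n_mem_of_const G.A (G.ev r) h
  obtain ⟨s, hs, hsr'⟩ := h1
  have hsr : G.ev s = G.ev r := hsr'
  have h2 : G.ev (r - s) = 0 := by rw [map_sub, hsr, sub_self]
  have h3 := G.hJ _ h2
  have h4 : (r : κ₁ × κ₂) = ((r - s : ↥(t2R (k := k) G.x)) : κ₁ × κ₂) + (s : κ₁ × κ₂) := by
    show (r : κ₁ × κ₂) = ((r : κ₁ × κ₂) - (s : κ₁ × κ₂)) + (s : κ₁ × κ₂)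
    ring
  rw [h4]
  exact G.S.add_mem h3 hs

end DlgData

end Fermat.Agent.Delta
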