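/-
DELTA / Σ-GLUE (helper9), part 2: **the nodes and the seminormal description of `S`**.

For a gluing datum `G : DlgData k κ₁ κ₂ σ`:
* `G.nodes : Set (Place k κ₁ × Place k κ₂)` — the pairs of branches identified by `S`; it is finite
  (`nodes_finite`), consists of places of the chart (`nodes_fin`) and is a partial bijection
  (`nodes_inj_left`, `nodes_inj_right`);
* **`mem_S_iff`** : `t ∈ S ↔ t.1 ∈ IntCl(k[x̄₁]) ∧ t.2 ∈ IntCl(k[x̄₂]) ∧ ∀ (P, Q) ∈ nodes, ∀ c,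
  t.1(P) = c ↔ t.2(Q) = c`.
-/
import Fermat.Agent.Lib.Delta.Glue.Defs

set_option autoImplicit false
set_option linter.unusedSectionVars false
set_option linter.unusedVariables false
set_option linter.style.haveILetI false

namespace Fermat.Agent.Delta

open AlgebraicCurve IntermediateField Fermat.Agent.Curve Fermat.Agent.Curve.PlaceAux
  Fermat.Agent.T1 Fermat.Agent.T2 Fermat.Agent.T3 Fermat.Agent.S33

namespace DlgData

variable {k κ₁ κ₂ : Type*} [Field k] [Field κ₁] [Field κ₂] [Algebra k κ₁] [Algebra k κ₂]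
  [IsAlgClosed k] {σ : Type*} [Fintype σ] (G : DlgData k κ₁ κ₂ σ)

/-- two coordinates of `ev` with the same branch are in the same class -/
theorem rel_of_br_eq {i j : σ} (h : G.br i = G.br j) : (t2nSetoid G.A).r i j := by
  rintro a ⟨r, hr, rfl⟩
  cases hbi : G.br i with
  | inl P =>
    have hj : G.br j = Sum.inl P := by rw [← h, hbi]
    exact ((G.br_inl hbi).2 r).unique ((G.br_inl hj).2 r)
  | inr Q =>
    have hj : G.br j = Sum.inr Q := by rw [← h, hbi]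
    exact ((G.br_inr hbi).2 r).unique ((G.br_inr hj).2 r)

/-- separation on the first component -/
theorem eq_of_rel_inl {i j : σ} {P P' : Place k κ₁} (hi : G.br i = Sum.inl P)
    (hj : G.br j = Sum.inl P') (hrel : (t2nSetoid G.A).r i j) : P = P' := by
  by_contra hne
  haveI := G.sep₁
  haveI : Fact (IsFunctionFieldGen k κ₁ G.x.1) := ⟨G.gen₁⟩
  have hxP : G.x.1 ∈ P.toValuationSubring := mem_of_ord_nonneg P (G.br_inl hi).1
  have hxP' : G.x.1 ∈ P'.toValuationSubring := mem_of_ord_nonneg P' (G.br_inl hj).1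
  obtain ⟨s, hs1, hs2, hs3, hs4⟩ := t3a_exists_separating P P' hxP hxP' (Ne.symm hne)
  obtain ⟨g, hg⟩ := G.hα s hs1
  have h1 := hrel _ (G.ev_toR_mem hg)
  have hvi : DlgVal P s (G.ev (G.toR hg) i) := (G.br_inl hi).2 (G.toR hg)
  have hvj : DlgVal P' s (G.ev (G.toR hg) j) := (G.br_inl hj).2 (G.toR hg)
  have h0 : G.ev (G.toR hg) j = 0 := hvj.unique (DlgVal.of_ordGE hs3)
  have hne0 : G.ev (G.toR hg) i ≠ 0 := DlgVal.ne_zero_of_ord_eq_zero hs2 hs4 hvi
  rw [h1, h0] at hne0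
  exact hne0 rfl

/-- separation on the second component -/
theorem eq_of_rel_inr {i j : σ} {Q Q' : Place k κ₂} (hi : G.br i = Sum.inr Q)
    (hj : G.br j = Sum.inr Q') (hrel : (t2nSetoid G.A).r i j) : Q = Q' := by
  by_contra hne
  haveI := G.sep₂
  haveI : Fact (IsFunctionFieldGen k κ₂ G.x.2) := ⟨G.gen₂⟩
  have hxQ : G.x.2 ∈ Q.toValuationSubring := mem_of_ord_nonneg Q (G.br_inr hi).1
  have hxQ' : G.x.2 ∈ Q'.toValuationSubring := mem_of_ord_nonneg Q' (G.br_inr hj).1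
  obtain ⟨s, hs1, hs2, hs3, hs4⟩ := t3a_exists_separating Q Q' hxQ hxQ' (Ne.symm hne)
  obtain ⟨f, hf⟩ := G.hβ s hs1
  have h1 := hrel _ (G.ev_toR_mem hf)
  have hvi : DlgVal Q s (G.ev (G.toR hf) i) := (G.br_inr hi).2 (G.toR hf)
  have hvj : DlgVal Q' s (G.ev (G.toR hf) j) := (G.br_inr hj).2 (G.toR hf)
  have h0 : G.ev (G.toR hf) j = 0 := hvj.unique (DlgVal.of_ordGE hs3)
  have hne0 : G.ev (G.toR hf) i ≠ 0 := DlgVal.ne_zero_of_ord_eq_zero hs2 hs4 hvi
  rw [h1, h0] at hne0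
  exact hne0 rfl

/-- **the nodes**: the pairs of branches identified by `S` -/
def nodes : Set (Place k κ₁ × Place k κ₂) :=
  {s | ∃ i j : σ, (t2nSetoid G.A).r i j ∧ G.br i = Sum.inl s.1 ∧ G.br j = Sum.inr s.2}

theorem mem_nodes {s : Place k κ₁ × Place k κ₂} : s ∈ G.nodes ↔
    ∃ i j : σ, (t2nSetoid G.A).r i j ∧ G.br i = Sum.inl s.1 ∧ G.br j = Sum.inr s.2 := Iff.rfl

theorem nodes_finite : G.nodes.Finite := by
  classical
  rw [← Set.finite_coe_iff]
  have hex : ∀ s : ↥G.nodes, ∃ ij : σ × σ, G.br ij.1 = Sum.inl s.1.1 ∧ G.br ij.2 = Sum.inr s.1.2 := by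
    rintro ⟨s, i, j, -, hi, hj⟩
    exact ⟨(i, j), hi, hj⟩
  choose f hf using hex
  refine Finite.of_injective f (fun s s' hss => ?_)
  apply Subtype.ext
  have h1 := (hf s).1
  have h2 := (hf s).2
  rw [hss] at h1 h2
  have h3 : (Sum.inl s.1.1 : Place k κ₁ ⊕ Place k κ₂) = Sum.inl s'.1.1 := h1.symm.trans (hf s').1
  have h4 : (Sum.inr s.1.2 : Place k κ₁ ⊕ Place k κ₂) = Sum.inr s'.1.2 := h2.symm.trans (hf s').2
  exact Prod.ext (Sum.inl.inj h3) (Sum.inr.inj h4)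

theorem nodes_fin {s : Place k κ₁ × Place k κ₂} (hs : s ∈ G.nodes) :
    0 ≤ s.1.ord G.x.1 ∧ 0 ≤ s.2.ord G.x.2 := by
  obtain ⟨i, j, -, hi, hj⟩ := hs
  exact ⟨(G.br_inl hi).1, (G.br_inr hj).1⟩

theorem nodes_inj_left {s s' : Place k κ₁ × Place k κ₂} (hs : s ∈ G.nodes) (hs' : s' ∈ G.nodes)
    (h : s.1 = s'.1) : s = s' := by
  obtain ⟨i, j, hij, hi, hj⟩ := hs
  obtain ⟨i', j', hij', hi', hj'⟩ := hs'
  have h1 : (t2nSetoid G.A).r i i' := G.rel_of_br_eq (by rw [hi, hi', h])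
  have h2 : (t2nSetoid G.A).r j j' :=
    (t2nSetoid G.A).trans ((t2nSetoid G.A).symm hij) ((t2nSetoid G.A).trans h1 hij')
  exact Prod.ext h (G.eq_of_rel_inr hj hj' h2)

theorem nodes_inj_right {s s' : Place k κ₁ × Place k κ₂} (hs : s ∈ G.nodes) (hs' : s' ∈ G.nodes)
    (h : s.2 = s'.2) : s = s' := by
  obtain ⟨i, j, hij, hi, hj⟩ := hs
  obtain ⟨i', j', hij', hi', hj'⟩ := hs'
  have h1 : (t2nSetoid G.A).r j j' := G.rel_of_br_eq (by rw [hj, hj', h])
  have h2 : (t2nSetoid G.A).r i i' :=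
    (t2nSetoid G.A).trans hij ((t2nSetoid G.A).trans h1 ((t2nSetoid G.A).symm hij'))
  exact Prod.ext (G.eq_of_rel_inl hi hi' h2) h

/-- elements of `S` take the same value at the two branches of a node -/
theorem val_node {t : κ₁ × κ₂} (ht : t ∈ G.S) {s : Place k κ₁ × Place k κ₂} (hs : s ∈ G.nodes)
    (c : k) : DlgVal s.1 t.1 c ↔ DlgVal s.2 t.2 c := by
  obtain ⟨i, j, hij, hi, hj⟩ := hs
  have h1 : G.ev (G.toR ht) i = G.ev (G.toR ht) j := hij _ (G.ev_toR_mem ht)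
  have hvi : DlgVal s.1 t.1 (G.ev (G.toR ht) i) := (G.br_inl hi).2 (G.toR ht)
  have hvj : DlgVal s.2 t.2 (G.ev (G.toR ht) j) := (G.br_inr hj).2 (G.toR ht)
  constructor
  · intro h
    rw [h.unique hvi, h1]
    exact hvj
  · intro h
    rw [h.unique hvj, ← h1]
    exact hvi

/-- **the seminormal description of `S`** -/
theorem mem_S_iff (t : κ₁ × κ₂) : t ∈ G.S ↔
    IsIntegral ↥(Algebra.adjoin k {G.x.1}) t.1 ∧ IsIntegral ↥(Algebra.adjoin k {G.x.2}) t.2 ∧
      ∀ s ∈ G.nodes, ∀ c : k, DlgVal s.1 t.1 c ↔ DlgVal s.2 t.2 c := by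
  constructor
  · intro ht
    have h1 : IsIntegral ↥(Algebra.adjoin k {G.x}) t := G.S_le ht
    exact ⟨t2c_isIntegral_fst h1, t2c_isIntegral_snd h1, fun s hs c => G.val_node ht hs c⟩
  · rintro ⟨h1, h2, h3⟩
    set r : ↥(t2R (k := k) G.x) := ⟨t, s33rd_isIntegral_prod_iff.mpr ⟨h1, h2⟩⟩ with hr
    refine G.mem_S_of_const r (fun i j hij => ?_)
    cases hbi : G.br i with
    | inl P =>
      cases hbj : G.br j with
      | inl P' =>
        have hPP : P = P' := G.eq_of_rel_inl hbi hbj hij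
        subst hPP
        exact ((G.br_inl hbi).2 r).unique ((G.br_inl hbj).2 r)
      | inr Q =>
        have hnode : (P, Q) ∈ G.nodes := ⟨i, j, hij, hbi, hbj⟩
        have hv := (h3 (P, Q) hnode (G.ev r i)).mp ((G.br_inl hbi).2 r)
        exact hv.unique ((G.br_inr hbj).2 r)
    | inr Q =>
      cases hbj : G.br j with
      | inl P =>
        have hnode : (P, Q) ∈ G.nodes := ⟨j, i, (t2nSetoid G.A).symm hij, hbj, hbi⟩
        have hv := (h3 (P, Q) hnode (G.ev r j)).mp ((G.br_inl hbj).2 r)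
        exact ((G.br_inr hbi).2 r).unique hv
      | inr Q' =>
        have hQQ : Q = Q' := G.eq_of_rel_inr hbi hbj hij
        subst hQQ
        exact ((G.br_inr hbi).2 r).unique ((G.br_inr hbj).2 r)

end DlgData

end Fermat.Agent.Delta
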