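/-
DELTA / Σ-GLUE (helper9), part 3: **the local rings of the special fibre**.

For a gluing datum `G : DlgData k κ₁ κ₂ σ`:
* `dlg_exists_frac` : a function regular at a place `P` of the chart is a quotient `n / d` of
  chart-regular functions with `d(P) ≠ 0`;
* `dlg_exists_local` : for `f ∈ O_P` with `f(P) = c` and a finite set `Σ` of places of the chart,
  chart-regular `a = f b`, `b` with `b(P) = 1`, `a(P) = c` and `a`, `b` vanishing on `Σ ∖ {P}`;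
* `mem_S_of_vals` : membership in `S` from equal values at the nodes;
* **`local_node`** : at a node `(P, Q)`: `O_P ×_k O_Q = S` localised at the node;
* **`local_free₁`**, **`local_free₂`** : at a place which is not a branch of a node: `O_P = S`
  localised at `P` (the other component does not pass through the point).
-/
import Fermat.Agent.Lib.Delta.Glue.Nodes

set_option autoImplicit false
set_option linter.unusedSectionVars false
set_option linter.unusedVariables false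
set_option linter.style.haveILetI false

namespace Fermat.Agent.Delta

open AlgebraicCurve IntermediateField Fermat.Agent.Curve Fermat.Agent.Curve.PlaceAux
  Fermat.Agent.T1 Fermat.Agent.T2 Fermat.Agent.T3 Fermat.Agent.S33 IsDedekindDomain

section Frac

variable {k κ : Type*} [Field k] [Field κ] [Algebra k κ] [IsAlgClosed k] {z : κ}
  [hz : Fact (IsFunctionFieldGen k κ z)] [hsep : Algebra.IsSeparable k⟮z⟯ κ]

local instance : IsDedekindDomain (CurveP.Bx k z) := CurveP.Bx.isDedekindDomain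

local instance : IsFractionRing (CurveP.Bx k z) κ := CurveP.Bx.isFractionRing

/-- a function regular at a place of the chart is a quotient of chart-regular functions with
denominator a unit at the place -/
theorem dlg_exists_frac (P : Place k κ) (hzP : z ∈ P.toValuationSubring) {f : κ}
    (hf : f ∈ P.toValuationSubring) :
    ∃ n d : κ, IsIntegral ↥(Algebra.adjoin k {z}) n ∧ IsIntegral ↥(Algebra.adjoin k {z}) d ∧
      d ≠ 0 ∧ P.ord d = 0 ∧ f * d = n := by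
  have hP : P = Place.ofHeightOneSpectrum (K := k) (centre P (CurveP.PlaceAux.Bx_le P hzP)) :=
    eq_ofHeightOneSpectrum_centre P (CurveP.PlaceAux.Bx_le P hzP)
  have hf' : (centre P (CurveP.PlaceAux.Bx_le P hzP)).valuation κ f ≤ 1 := by
    have h1 : f ∈ (Place.ofHeightOneSpectrum (K := k) (F := κ)
        (centre P (CurveP.PlaceAux.Bx_le P hzP))).toValuationSubring := by
      rw [← hP]; exact hf
    rwa [Place.ofHeightOneSpectrum_toValuationSubring, Valuation.mem_valuationSubring_iff] at h1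
  obtain ⟨n, d, hnd⟩ :=
    (centre P (CurveP.PlaceAux.Bx_le P hzP)).exists_primeCompl_mul_eq_of_integer f hf'
  have hd0 : (d : CurveP.Bx k z) ∉ (centre P (CurveP.PlaceAux.Bx_le P hzP)).asIdeal := d.2
  have hd := (mem_centre_iff P (CurveP.PlaceAux.Bx_le P hzP) (d : CurveP.Bx k z)).not.mp hd0
  push Not at hd
  refine ⟨algebraMap (CurveP.Bx k z) κ n, algebraMap (CurveP.Bx k z) κ d, n.2,
    (d : CurveP.Bx k z).2, ?_, ?_, hnd⟩
  · rw [ne_eq, IsFractionRing.to_map_eq_zero_iff]; exact hd.1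
  · exact le_antisymm hd.2 (ord_nonneg_of_mem P (CurveP.PlaceAux.Bx_le P hzP d))

/-- the local interpolation lemma -/
theorem dlg_exists_local (T : Finset (Place k κ)) (hT : ∀ Q ∈ T, 0 ≤ Q.ord z) (P : Place k κ)
    (hPT : P ∈ T) {f : κ} {c : k} (hf : DlgVal P f c) :
    ∃ a b : κ, IsIntegral ↥(Algebra.adjoin k {z}) a ∧ IsIntegral ↥(Algebra.adjoin k {z}) b ∧
      a = f * b ∧ DlgVal P b 1 ∧ DlgVal P a c ∧
      ∀ Q ∈ T, Q ≠ P → DlgVal Q b 0 ∧ DlgVal Q a 0 := by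
  have hzP : z ∈ P.toValuationSubring := mem_of_ord_nonneg P (hT P hPT)
  obtain ⟨n, d, hn, hd, hd0, hdord, hfd⟩ := dlg_exists_frac P hzP hf.mem
  obtain ⟨u, hu, hu1, huT⟩ := t3a_exists_indicator_ded hz.out T hT P hPT
  have hdmem : d ∈ P.toValuationSubring := mem_of_ord_nonneg P (le_of_eq hdord.symm)
  obtain ⟨δ, hδ⟩ := dlg_exists_val hz.out P hdmem
  have hδ0 : δ ≠ 0 := DlgVal.ne_zero_of_ord_eq_zero hd0 hdord hδ
  have hu1' : DlgVal P u 1 := by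
    unfold DlgVal; rwa [map_one]
  refine ⟨δ⁻¹ • (u * n), δ⁻¹ • (u * d), tb_isIntegral_smul z δ⁻¹ (hu.mul hn),
    tb_isIntegral_smul z δ⁻¹ (hu.mul hd), ?_, ?_, ?_, ?_⟩
  · rw [← hfd, Algebra.smul_def, Algebra.smul_def]; ring
  · have := (hu1'.mul hδ).smul δ⁻¹
    rwa [one_mul, inv_mul_cancel₀ hδ0] at this
  · have h1 : δ⁻¹ • (u * n) = f * (δ⁻¹ • (u * d)) := by
      rw [← hfd, Algebra.smul_def, Algebra.smul_def]; ring
    rw [h1]
    have h2 := (hu1'.mul hδ).smul δ⁻¹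
    rw [one_mul, inv_mul_cancel₀ hδ0] at h2
    have := hf.mul h2
    rwa [mul_one] at this
  · intro Q hQ hne
    have hQu : OrdGE Q u 1 := huT Q hQ hne
    have hmul : ∀ g : κ, IsIntegral ↥(Algebra.adjoin k {z}) g → DlgVal Q (δ⁻¹ • (u * g)) 0 := by
      intro g hg
      have h1 : OrdGE Q g 0 := by
        rw [ordGE_iff]; right
        exact ta_ord_nonneg_of_isIntegral hg Q (hT Q hQ)
      have h2 := (hQu.mul Q h1).smul Q δ⁻¹
      exact DlgVal.of_ordGE (h2.mono Q (by norm_num))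
    exact ⟨hmul d hd, hmul n hn⟩

end Frac

namespace DlgData

variable {k κ₁ κ₂ : Type*} [Field k] [Field κ₁] [Field κ₂] [Algebra k κ₁] [Algebra k κ₂]
  [IsAlgClosed k] {σ : Type*} [Fintype σ] (G : DlgData k κ₁ κ₂ σ)

/-- membership in `S` from equal values at the nodes -/
theorem mem_S_of_vals {t : κ₁ × κ₂} (h1 : IsIntegral ↥(Algebra.adjoin k {G.x.1}) t.1)
    (h2 : IsIntegral ↥(Algebra.adjoin k {G.x.2}) t.2)
    (h3 : ∀ s ∈ G.nodes, ∃ c : k, DlgVal s.1 t.1 c ∧ DlgVal s.2 t.2 c) : t ∈ G.S := by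
  rw [G.mem_S_iff]
  refine ⟨h1, h2, fun s hs c => ?_⟩
  obtain ⟨c', hc1, hc2⟩ := h3 s hs
  constructor
  · intro h
    rw [h.unique hc1]; exact hc2
  · intro h
    rw [h.unique hc2]; exact hc1

/-- the first branches of the nodes -/
noncomputable def nodes₁ : Finset (Place k κ₁) := by
  classical
  exact G.nodes_finite.toFinset.image Prod.fst

/-- the second branches of the nodes -/
noncomputable def nodes₂ : Finset (Place k κ₂) := by
  classical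
  exact G.nodes_finite.toFinset.image Prod.snd

theorem mem_nodes₁ {P : Place k κ₁} : P ∈ G.nodes₁ ↔ ∃ Q, (P, Q) ∈ G.nodes := by
  classical
  unfold nodes₁
  rw [Finset.mem_image]
  constructor
  · rintro ⟨s, hs, rfl⟩
    exact ⟨s.2, (Set.Finite.mem_toFinset _).mp hs⟩
  · rintro ⟨Q, hQ⟩
    exact ⟨(P, Q), (Set.Finite.mem_toFinset _).mpr hQ, rfl⟩

theorem mem_nodes₂ {Q : Place k κ₂} : Q ∈ G.nodes₂ ↔ ∃ P, (P, Q) ∈ G.nodes := by
  classical
  unfold nodes₂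
  rw [Finset.mem_image]
  constructor
  · rintro ⟨s, hs, rfl⟩
    exact ⟨s.1, (Set.Finite.mem_toFinset _).mp hs⟩
  · rintro ⟨P, hP⟩
    exact ⟨(P, Q), (Set.Finite.mem_toFinset _).mpr hP, rfl⟩

theorem nodes₁_fin {P : Place k κ₁} (h : P ∈ G.nodes₁) : 0 ≤ P.ord G.x.1 := by
  obtain ⟨Q, hQ⟩ := G.mem_nodes₁.mp h
  exact (G.nodes_fin hQ).1

theorem nodes₂_fin {Q : Place k κ₂} (h : Q ∈ G.nodes₂) : 0 ≤ Q.ord G.x.2 := by
  obtain ⟨P, hP⟩ := G.mem_nodes₂.mp h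
  exact (G.nodes_fin hP).2

/-- **the local ring at a node**: `O_P ×_k O_Q` is the localisation of `S` at the node -/
theorem local_node {s : Place k κ₁ × Place k κ₂} (hs : s ∈ G.nodes) {f : κ₁} {g : κ₂} {c : k}
    (hf : DlgVal s.1 f c) (hg : DlgVal s.2 g c) :
    ∃ a ∈ G.S, ∃ b ∈ G.S, DlgVal s.1 b.1 1 ∧ DlgVal s.2 b.2 1 ∧ a.1 = f * b.1 ∧ a.2 = g * b.2 := by
  classical
  haveI := G.sep₁
  haveI := G.sep₂
  haveI : Fact (IsFunctionFieldGen k κ₁ G.x.1) := ⟨G.gen₁⟩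
  haveI : Fact (IsFunctionFieldGen k κ₂ G.x.2) := ⟨G.gen₂⟩
  have hP1 : s.1 ∈ G.nodes₁ := G.mem_nodes₁.mpr ⟨s.2, hs⟩
  have hQ2 : s.2 ∈ G.nodes₂ := G.mem_nodes₂.mpr ⟨s.1, hs⟩
  obtain ⟨a₁, b₁, ha₁, hb₁, hab₁, hb₁P, ha₁P, h₁⟩ :=
    dlg_exists_local G.nodes₁ (fun Q hQ => G.nodes₁_fin hQ) s.1 hP1 hf
  obtain ⟨a₂, b₂, ha₂, hb₂, hab₂, hb₂Q, ha₂Q, h₂⟩ :=
    dlg_exists_local G.nodes₂ (fun Q hQ => G.nodes₂_fin hQ) s.2 hQ2 hg
  refine ⟨(a₁, a₂), ?_, (b₁, b₂), ?_, hb₁P, hb₂Q, hab₁, hab₂⟩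
  · refine G.mem_S_of_vals ha₁ ha₂ (fun s' hs' => ?_)
    by_cases hss : s' = s
    · subst hss
      exact ⟨c, ha₁P, ha₂Q⟩
    · have hne1 : s'.1 ≠ s.1 := fun h => hss (G.nodes_inj_left hs' hs h)
      have hne2 : s'.2 ≠ s.2 := fun h => hss (G.nodes_inj_right hs' hs h)
      exact ⟨0, (h₁ s'.1 (G.mem_nodes₁.mpr ⟨s'.2, hs'⟩) hne1).2,
        (h₂ s'.2 (G.mem_nodes₂.mpr ⟨s'.1, hs'⟩) hne2).2⟩
  · refine G.mem_S_of_vals hb₁ hb₂ (fun s' hs' => ?_)
    by_cases hss : s' = s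
    · subst hss
      exact ⟨1, hb₁P, hb₂Q⟩
    · have hne1 : s'.1 ≠ s.1 := fun h => hss (G.nodes_inj_left hs' hs h)
      have hne2 : s'.2 ≠ s.2 := fun h => hss (G.nodes_inj_right hs' hs h)
      exact ⟨0, (h₁ s'.1 (G.mem_nodes₁.mpr ⟨s'.2, hs'⟩) hne1).1,
        (h₂ s'.2 (G.mem_nodes₂.mpr ⟨s'.1, hs'⟩) hne2).1⟩

/-- **the local ring at a free place of the first component** -/
theorem local_free₁ {P : Place k κ₁} (hP : 0 ≤ P.ord G.x.1) (hfree : ∀ Q, (P, Q) ∉ G.nodes)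
    {f : κ₁} {c : k} (hf : DlgVal P f c) :
    ∃ a ∈ G.S, ∃ b ∈ G.S, DlgVal P b.1 1 ∧ b.2 = 0 ∧ a.2 = 0 ∧ a.1 = f * b.1 := by
  classical
  haveI := G.sep₁
  haveI : Fact (IsFunctionFieldGen k κ₁ G.x.1) := ⟨G.gen₁⟩
  have hT : ∀ Q ∈ insert P G.nodes₁, 0 ≤ Q.ord G.x.1 := by
    intro Q hQ
    rcases Finset.mem_insert.mp hQ with rfl | hQ
    · exact hP
    · exact G.nodes₁_fin hQ
  obtain ⟨a₁, b₁, ha₁, hb₁, hab₁, hb₁P, ha₁P, h₁⟩ :=
    dlg_exists_local (insert P G.nodes₁) hT P (Finset.mem_insert_self _ _) hf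
  refine ⟨(a₁, 0), ?_, (b₁, 0), ?_, hb₁P, rfl, rfl, hab₁⟩
  · refine G.mem_S_of_vals ha₁ isIntegral_zero (fun s' hs' => ?_)
    have hne1 : s'.1 ≠ P := fun h => hfree s'.2 (by rw [← h]; exact hs')
    exact ⟨0, (h₁ s'.1 (Finset.mem_insert_of_mem (G.mem_nodes₁.mpr ⟨s'.2, hs'⟩)) hne1).2,
      DlgVal.zero _⟩
  · refine G.mem_S_of_vals hb₁ isIntegral_zero (fun s' hs' => ?_)
    have hne1 : s'.1 ≠ P := fun h => hfree s'.2 (by rw [← h]; exact hs')
    exact ⟨0, (h₁ s'.1 (Finset.mem_insert_of_mem (G.mem_nodes₁.mpr ⟨s'.2, hs'⟩)) hne1).1,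
      DlgVal.zero _⟩

/-- **the local ring at a free place of the second component** -/
theorem local_free₂ {Q : Place k κ₂} (hQ : 0 ≤ Q.ord G.x.2) (hfree : ∀ P, (P, Q) ∉ G.nodes)
    {g : κ₂} {c : k} (hg : DlgVal Q g c) :
    ∃ a ∈ G.S, ∃ b ∈ G.S, DlgVal Q b.2 1 ∧ b.1 = 0 ∧ a.1 = 0 ∧ a.2 = g * b.2 := by
  classical
  haveI := G.sep₂
  haveI : Fact (IsFunctionFieldGen k κ₂ G.x.2) := ⟨G.gen₂⟩
  have hT : ∀ Q' ∈ insert Q G.nodes₂, 0 ≤ Q'.ord G.x.2 := by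
    intro Q' hQ'
    rcases Finset.mem_insert.mp hQ' with rfl | hQ'
    · exact hQ
    · exact G.nodes₂_fin hQ'
  obtain ⟨a₂, b₂, ha₂, hb₂, hab₂, hb₂Q, ha₂Q, h₂⟩ :=
    dlg_exists_local (insert Q G.nodes₂) hT Q (Finset.mem_insert_self _ _) hg
  refine ⟨(0, a₂), ?_, (0, b₂), ?_, hb₂Q, rfl, rfl, hab₂⟩
  · refine G.mem_S_of_vals isIntegral_zero ha₂ (fun s' hs' => ?_)
    have hne2 : s'.2 ≠ Q := fun h => hfree s'.1 (by rw [← h]; exact hs')
    exact ⟨0, DlgVal.zero _,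
      (h₂ s'.2 (Finset.mem_insert_of_mem (G.mem_nodes₂.mpr ⟨s'.1, hs'⟩)) hne2).2⟩
  · refine G.mem_S_of_vals isIntegral_zero hb₂ (fun s' hs' => ?_)
    have hne2 : s'.2 ≠ Q := fun h => hfree s'.1 (by rw [← h]; exact hs')
    exact ⟨0, DlgVal.zero _,
      (h₂ s'.2 (Finset.mem_insert_of_mem (G.mem_nodes₂.mpr ⟨s'.1, hs'⟩)) hne2).1⟩

end DlgData

end Fermat.Agent.Delta
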