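/-
DELTA / Σ-GLUE (helper9), part 4: **the gluing datum at an inertia level `L_H = tbFix 𝔓 H`**.

For a `T2Setup` `su` of `t2iBase2Fix 𝔓 H N' h` with the symmetric chart `su.x = t2gaX 𝔓 H N' h (p²)`
and `su.xb = (ξ, ξ)` (the one of `s33q_exists_setup_level`):
`dlgDataH … su hx hxb : DlgData κ E E (Fin n)` with `x = su.xb`, `S = su.S1`, `ev = su.ev`;
(α), (β) come from `t2i_alpha_mem_resIntAlg` (`(f, Φ f)`, `(Φ f, f) ∈ S₁`).
So `Glue/Nodes.lean`, `Glue/Local.lean` apply to the special fibre of the chart at every level `H`.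
-/
import Fermat.Agent.Lib.Delta.Glue.Local
import Fermat.Agent.Lib.S33.Qb.Setup
import Fermat.Agent.Lib.S33.Sep.Xi

set_option autoImplicit false
set_option linter.unusedSectionVars false
set_option linter.unusedVariables false
set_option linter.style.haveILetI false
set_option synthInstance.maxHeartbeats 400000
set_option maxHeartbeats 1000000

open HahnSeries ModularCurve Fermat.Agent.T1 Fermat.Agent.T2 Fermat.Agent.TW Fermat.Agent.S05Lib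
  Fermat.Agent.S24Lib IntermediateField AlgebraicCurve Fermat.Agent.Curve Module
  Fermat.Agent.S33 Fermat.Agent.S33Q

noncomputable section

namespace Fermat.Agent.Delta

attribute [local instance] t2i_dvr t2i_isAlgClosed t2i_charP t2i_fact

variable (𝔓 : FFPlace) (H : Subgroup 𝔓.I) [H.FiniteIndex] (N' : ℕ) [NeZero N'] (h : ¬ 𝔓.p ∣ N')

/-- the two names of `ξ` -/
theorem dlg_xi_eq : s33qXi 𝔓 N' = t2sfXi (IsLocalRing.ResidueField ↥𝔓.P) 𝔓.p N' := by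
  rw [s33qXi, t2sfXi_eq, ← sq]
  rfl

include h in
theorem dlg_xi_gen :
    IsFunctionFieldGen (IsLocalRing.ResidueField ↥𝔓.P) ↥(tbBarF 𝔓 N') (s33qXi 𝔓 N') := by
  rw [dlg_xi_eq]
  exact t2sf_bar_isFunctionFieldGen (IsLocalRing.ResidueField ↥𝔓.P) 𝔓.p N'

include h in
theorem dlg_xi_sep :
    Algebra.IsSeparable ↥(IsLocalRing.ResidueField ↥𝔓.P)⟮s33qXi 𝔓 N'⟯ ↥(tbBarF 𝔓 N') := by
  rw [dlg_xi_eq]
  exact s33sx_sepb (IsLocalRing.ResidueField ↥𝔓.P) 𝔓.p N' (t2i_natCast_ne_zero 𝔓 h)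

/-- integrality over `k[ξ]` implies integrality over `k[j̄]` -/
theorem dlg_isIntegral_j {f : ↥(tbBarF 𝔓 N')}
    (hf : IsIntegral ↥(Algebra.adjoin (IsLocalRing.ResidueField ↥𝔓.P) {s33qXi 𝔓 N'}) f) :
    f ∈ t2R (k := IsLocalRing.ResidueField ↥𝔓.P) (taBarJ (IsLocalRing.ResidueField ↥𝔓.P) N') := by
  rw [mem_t2R]
  refine t2c_isIntegral_of_mem_adjoin ?_ hf
  rw [dlg_xi_eq]
  exact t2sfXi_mem_adjoin (IsLocalRing.ResidueField ↥𝔓.P) 𝔓.p N'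

variable (h49 : 4 ∣ N' ∨ 9 ∣ N') {n : ℕ} (su : T2Setup (t2iBase2Fix 𝔓 H N' h) (Fin n))
  (hx : su.x = t2gaX 𝔓 H N' h (𝔓.p ^ 2)) (hxb : su.xb = (s33qXi 𝔓 N', s33qXi 𝔓 N'))

include h49 hx in
/-- (α) and (β) at the level `H` -/
theorem dlg_alpha_beta {f : ↥(tbBarF 𝔓 N')}
    (hf : IsIntegral ↥(Algebra.adjoin (IsLocalRing.ResidueField ↥𝔓.P) {s33qXi 𝔓 N'}) f) :
    (f, t2fePhi (IsLocalRing.ResidueField ↥𝔓.P) 𝔓.p N' f) ∈ su.S1 ∧
      (t2fePhi (IsLocalRing.ResidueField ↥𝔓.P) 𝔓.p N' f, f) ∈ su.S1 := by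
  have hx' : su.x = t2iXs (t2iALFix 𝔓 H N' h) := hx
  have key := t2i_alpha_mem_resIntAlg (t2iFrobFix 𝔓 N')
    (t2i_hyp_fix 𝔓 H N' h (t2i_leafGR 𝔓 H N' h h49) (t2i_leafSF 𝔓 N' h)) f
    (dlg_isIntegral_j 𝔓 N' hf)
  rw [su.mem_S1, su.mem_S1, hx']
  exact key

/-- **the gluing datum at the level `H`** -/
def dlgDataH : DlgData (IsLocalRing.ResidueField ↥𝔓.P) ↥(tbBarF 𝔓 N') ↥(tbBarF 𝔓 N') (Fin n) where
  x := su.xb
  gen₁ := by rw [hxb]; exact dlg_xi_gen 𝔓 N' h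
  sep₁ := by rw [hxb]; exact dlg_xi_sep 𝔓 N' h
  gen₂ := by rw [hxb]; exact dlg_xi_gen 𝔓 N' h
  sep₂ := by rw [hxb]; exact dlg_xi_sep 𝔓 N' h
  S := su.S1
  S_le := su.S1_le_R
  ev := su.ev
  hJ := su.hJ
  hα := fun f hf => by
    rw [hxb] at hf
    exact ⟨_, (dlg_alpha_beta 𝔓 H N' h h49 su hx hf).1⟩
  hβ := fun g hg => by
    rw [hxb] at hg
    exact ⟨_, (dlg_alpha_beta 𝔓 H N' h h49 su hx hg).2⟩

@[simp] theorem dlgDataH_x : (dlgDataH 𝔓 H N' h h49 su hx hxb).x = su.xb := rfl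

@[simp] theorem dlgDataH_S : (dlgDataH 𝔓 H N' h h49 su hx hxb).S = su.S1 := rfl

theorem dlgDataH_x' : (dlgDataH 𝔓 H N' h h49 su hx hxb).x = (s33qXi 𝔓 N', s33qXi 𝔓 N') := hxb

/-- membership in `S` at the level `H`: reductions of the unit ball `B₁` of `t2Int x` -/
theorem dlgDataH_mem_S {t : ↥(tbBarF 𝔓 N') × ↥(tbBarF 𝔓 N')} :
    t ∈ (dlgDataH 𝔓 H N' h h49 su hx hxb).S ↔
      ∃ b, ∃ hb : b ∈ (t2iBase2Fix 𝔓 H N' h).ball (t2Int su.x),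
        (t2iBase2Fix 𝔓 H N' h).res ⟨b, hb.2⟩ = t := Iff.rfl

end Fermat.Agent.Delta
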