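/-
DELTA / Σ-GLUE (helper9), part 5: **the local statements with lifts in the unit ball `B₁`**.

For a two-component base `d : T2Base K F k (κ₁ × κ₂)`, a setup `su : T2Setup d σ` and a gluing datum
`G : DlgData k κ₁ κ₂ σ` with `G.S = su.S1` (`= res B₁`, `B₁ = d.ball (t2Int su.x)`): the statements
of `Glue/Nodes.lean`, `Glue/Local.lean` with the elements of `S` replaced by reductions of elements
of `B₁`.  (At the level `H`: `d = t2iBase2Fix 𝔓 H N' h`, `G = dlgDataH …`, `hS = dlgDataH_S …`.)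
-/
import Fermat.Agent.Lib.Delta.Glue.Local
import Fermat.Agent.Lib.T2.Core.Sing

set_option autoImplicit false
set_option linter.unusedSectionVars false
set_option linter.unusedVariables false
set_option linter.style.haveILetI false

namespace Fermat.Agent.Delta

open AlgebraicCurve Fermat.Agent.T1 Fermat.Agent.T2

variable {K F k κ₁ κ₂ : Type*} [Field K] [Field F] [Algebra K F] [Field k] [Field κ₁] [Field κ₂]
  [Algebra k κ₁] [Algebra k κ₂] [IsAlgClosed k] {σ : Type*} [Fintype σ]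
  (d : T2Base K F k (κ₁ × κ₂)) (su : T2Setup d σ) (G : DlgData k κ₁ κ₂ σ) (hS : G.S = su.S1)

include hS in
/-- `S = res B₁` -/
theorem dlg_mem_S_iff_lift {t : κ₁ × κ₂} :
    t ∈ G.S ↔ ∃ b, ∃ hb : b ∈ d.ball (t2Int su.x), d.res ⟨b, hb.2⟩ = t := by
  rw [hS]
  exact Iff.rfl

include hS in
/-- the reductions of the elements of `B₁` lie in `S` -/
theorem dlg_res_mem_S {b : F} (hb : b ∈ d.ball (t2Int su.x)) : d.res ⟨b, hb.2⟩ ∈ G.S :=
  (dlg_mem_S_iff_lift d su G hS).2 ⟨b, hb, rfl⟩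

include hS in
/-- the two values of the reduction of an element of `B₁` at a node agree -/
theorem dlg_val_node_lift {b : F} (hb : b ∈ d.ball (t2Int su.x)) {s : Place k κ₁ × Place k κ₂}
    (hs : s ∈ G.nodes) (c : k) :
    DlgVal s.1 (d.res ⟨b, hb.2⟩).1 c ↔ DlgVal s.2 (d.res ⟨b, hb.2⟩).2 c :=
  G.val_node (dlg_res_mem_S d su G hS hb) hs c

include hS in
/-- the reductions of the elements of `B₁` are regular on the two charts -/
theorem dlg_res_integral {b : F} (hb : b ∈ d.ball (t2Int su.x)) :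
    IsIntegral ↥(Algebra.adjoin k {G.x.1}) (d.res ⟨b, hb.2⟩).1 ∧
      IsIntegral ↥(Algebra.adjoin k {G.x.2}) (d.res ⟨b, hb.2⟩).2 := by
  have h := (G.mem_S_iff _).1 (dlg_res_mem_S d su G hS hb)
  exact ⟨h.1, h.2.1⟩

include hS in
/-- **(c) with lifts**: a pair of chart-regular functions with equal values at the nodes is the
reduction of an element of `B₁` -/
theorem dlg_exists_lift {t : κ₁ × κ₂} (h1 : IsIntegral ↥(Algebra.adjoin k {G.x.1}) t.1)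
    (h2 : IsIntegral ↥(Algebra.adjoin k {G.x.2}) t.2)
    (hv : ∀ s ∈ G.nodes, ∀ c : k, DlgVal s.1 t.1 c ↔ DlgVal s.2 t.2 c) :
    ∃ b, ∃ hb : b ∈ d.ball (t2Int su.x), d.res ⟨b, hb.2⟩ = t :=
  (dlg_mem_S_iff_lift d su G hS).1 ((G.mem_S_iff t).2 ⟨h1, h2, hv⟩)

include hS in
/-- **(L2) with lifts in `B₁`** -/
theorem dlg_local_node_lift {s : Place k κ₁ × Place k κ₂} (hs : s ∈ G.nodes) {f : κ₁} {g : κ₂}
    {c : k} (hf : DlgVal s.1 f c) (hg : DlgVal s.2 g c) :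
    ∃ a, ∃ ha : a ∈ d.ball (t2Int su.x), ∃ b, ∃ hb : b ∈ d.ball (t2Int su.x),
      DlgVal s.1 (d.res ⟨b, hb.2⟩).1 1 ∧ DlgVal s.2 (d.res ⟨b, hb.2⟩).2 1 ∧
      (d.res ⟨a, ha.2⟩).1 = f * (d.res ⟨b, hb.2⟩).1 ∧
      (d.res ⟨a, ha.2⟩).2 = g * (d.res ⟨b, hb.2⟩).2 := by
  obtain ⟨ta, hta, tb, htb, h1, h2, h3, h4⟩ := G.local_node hs hf hg
  obtain ⟨a, ha, hra⟩ := (dlg_mem_S_iff_lift d su G hS).1 hta
  obtain ⟨b, hb, hrb⟩ := (dlg_mem_S_iff_lift d su G hS).1 htb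
  refine ⟨a, ha, b, hb, ?_, ?_, ?_, ?_⟩
  · rw [hrb]; exact h1
  · rw [hrb]; exact h2
  · rw [hra, hrb]; exact h3
  · rw [hra, hrb]; exact h4

include hS in
/-- **(L3) with lifts in `B₁`**, first component -/
theorem dlg_local_free₁_lift {P : Place k κ₁} (hP : 0 ≤ P.ord G.x.1)
    (hfree : ∀ Q, (P, Q) ∉ G.nodes) {f : κ₁} {c : k} (hf : DlgVal P f c) :
    ∃ a, ∃ ha : a ∈ d.ball (t2Int su.x), ∃ b, ∃ hb : b ∈ d.ball (t2Int su.x),
      DlgVal P (d.res ⟨b, hb.2⟩).1 1 ∧ (d.res ⟨b, hb.2⟩).2 = 0 ∧ (d.res ⟨a, ha.2⟩).2 = 0 ∧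
      (d.res ⟨a, ha.2⟩).1 = f * (d.res ⟨b, hb.2⟩).1 := by
  obtain ⟨ta, hta, tb, htb, h1, h2, h3, h4⟩ := G.local_free₁ hP hfree hf
  obtain ⟨a, ha, hra⟩ := (dlg_mem_S_iff_lift d su G hS).1 hta
  obtain ⟨b, hb, hrb⟩ := (dlg_mem_S_iff_lift d su G hS).1 htb
  refine ⟨a, ha, b, hb, ?_, ?_, ?_, ?_⟩
  · rw [hrb]; exact h1
  · rw [hrb]; exact h2
  · rw [hra]; exact h3
  · rw [hra, hrb]; exact h4

include hS in
/-- **(L3) with lifts in `B₁`**, second component -/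
theorem dlg_local_free₂_lift {Q : Place k κ₂} (hQ : 0 ≤ Q.ord G.x.2)
    (hfree : ∀ P, (P, Q) ∉ G.nodes) {g : κ₂} {c : k} (hg : DlgVal Q g c) :
    ∃ a, ∃ ha : a ∈ d.ball (t2Int su.x), ∃ b, ∃ hb : b ∈ d.ball (t2Int su.x),
      DlgVal Q (d.res ⟨b, hb.2⟩).2 1 ∧ (d.res ⟨b, hb.2⟩).1 = 0 ∧ (d.res ⟨a, ha.2⟩).1 = 0 ∧
      (d.res ⟨a, ha.2⟩).2 = g * (d.res ⟨b, hb.2⟩).2 := by
  obtain ⟨ta, hta, tb, htb, h1, h2, h3, h4⟩ := G.local_free₂ hQ hfree hg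
  obtain ⟨a, ha, hra⟩ := (dlg_mem_S_iff_lift d su G hS).1 hta
  obtain ⟨b, hb, hrb⟩ := (dlg_mem_S_iff_lift d su G hS).1 htb
  refine ⟨a, ha, b, hb, ?_, ?_, ?_, ?_⟩
  · rw [hrb]; exact h1
  · rw [hrb]; exact h2
  · rw [hra]; exact h3
  · rw [hra, hrb]; exact h4

end Fermat.Agent.Delta
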